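import Mathlib

/-!
# Abstract quadratic-form node of S52 / Block A

`h : G → ℤ` on an additive commutative group satisfying the exact parallelogram law is a
quadratic form: its polar pairing is biadditive.  If moreover an endomorphism `Φ` scales `h`
by `q`, `h u = 1` and `h ((Φ² - 1) u) = h ((Φ - 1) u) * h ((Φ + 1) u)`, then
`h (Φ² u - a Φ u + q u) = 0` with `a = q + 1 - h (Φ u - u)`.
-/

namespace Fermat.Agent.S52.A.QuadAbs

variable {G : Type*} [AddCommGroup G]

/-- The exact parallelogram law. -/
def Para (h : G → ℤ) : Prop :=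
  ∀ P Q : G, h (P + Q) + h (P - Q) = 2 * h P + 2 * h Q

/-- The polar pairing of `h`. -/
def pair (h : G → ℤ) (P Q : G) : ℤ := h (P + Q) - h P - h Q

namespace Para

variable {h : G → ℤ}

theorem map_zero (hp : Para h) : h 0 = 0 := by
  have := hp 0 0
  simp only [add_zero, sub_zero] at this
  omega

theorem map_neg (hp : Para h) (P : G) : h (-P) = h P := by
  have h1 := hp 0 P
  have h0 := hp.map_zero
  simp only [zero_add, zero_sub] at h1
  omega

theorem map_sub_comm (hp : Para h) (P Q : G) : h (P - Q) = h (Q - P) := by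
  rw [← hp.map_neg (Q - P), neg_sub]

theorem cube (hp : Para h) (P Q R : G) :
    h (P + Q + R) = h (P + Q) + h (P + R) + h (Q + R) - h P - h Q - h R := by
  have e1 := hp (P + R) Q
  have e2 := hp P (R - Q)
  have e3 := hp (P + Q) R
  have e4 := hp R Q
  have a1 : P + R + Q = P + Q + R := by abel
  have a2 : P + (R - Q) = P + R - Q := by abel
  have a3 : P - (R - Q) = P + Q - R := by abel
  have a4 : R + Q = Q + R := by abel
  rw [a1] at e1
  rw [a2, a3] at e2
  rw [a4] at e4
  omega

theorem pair_comm (h : G → ℤ) (P Q : G) : pair h P Q = pair h Q P := by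
  unfold pair
  rw [add_comm P Q]
  ring

theorem pair_add_left (hp : Para h) (P Q R : G) :
    pair h (P + Q) R = pair h P R + pair h Q R := by
  unfold pair
  rw [hp.cube P Q R]
  ring

theorem pair_add_right (hp : Para h) (P Q R : G) :
    pair h P (Q + R) = pair h P Q + pair h P R := by
  rw [pair_comm, hp.pair_add_left, pair_comm h Q, pair_comm h R]

theorem pair_self (hp : Para h) (P : G) : pair h P P = 2 * h P := by
  have := hp P P
  have h0 := hp.map_zero
  unfold pair
  rw [sub_self] at this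
  omega

/-- The pairing as a biadditive map. -/
def pairHom (hp : Para h) : G →+ G →+ ℤ :=
  AddMonoidHom.mk' (fun P => AddMonoidHom.mk' (fun Q => pair h P Q) (hp.pair_add_right P))
    (fun P Q => by
      ext R
      exact hp.pair_add_left P Q R)

@[simp] theorem pairHom_apply (hp : Para h) (P Q : G) : hp.pairHom P Q = pair h P Q := rfl

theorem pair_zsmul_left (hp : Para h) (n : ℤ) (P Q : G) :
    pair h (n • P) Q = n * pair h P Q := by
  have h1 : hp.pairHom (n • P) Q = n • hp.pairHom P Q := by
    rw [_root_.map_zsmul, AddMonoidHom.zsmul_apply]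
  rw [pairHom_apply, pairHom_apply, smul_eq_mul] at h1
  exact h1

theorem pair_zsmul_right (hp : Para h) (n : ℤ) (P Q : G) :
    pair h P (n • Q) = n * pair h P Q := by
  rw [pair_comm, hp.pair_zsmul_left, pair_comm]

theorem pair_neg_left (hp : Para h) (P Q : G) : pair h (-P) Q = - pair h P Q := by
  have := hp.pair_zsmul_left (-1) P Q
  simpa using this

theorem pair_neg_right (hp : Para h) (P Q : G) : pair h P (-Q) = - pair h P Q := by
  rw [pair_comm, hp.pair_neg_left, pair_comm]

theorem map_add (h : G → ℤ) (P Q : G) : h (P + Q) = h P + h Q + pair h P Q := by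
  unfold pair
  ring

theorem map_sub (hp : Para h) (P Q : G) : h (P - Q) = h P + h Q - pair h P Q := by
  rw [sub_eq_add_neg, map_add h, hp.map_neg, hp.pair_neg_right]
  ring

theorem map_zsmul (hp : Para h) (n : ℤ) (P : G) : h (n • P) = n ^ 2 * h P := by
  have h1 := hp.pair_self (n • P)
  rw [hp.pair_zsmul_left, hp.pair_zsmul_right, hp.pair_self] at h1
  have : 2 * h (n • P) = 2 * (n ^ 2 * h P) := by rw [← h1]; ring
  omega

theorem map_nsmul (hp : Para h) (n : ℕ) (P : G) : h (n • P) = (n : ℤ) ^ 2 * h P := by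
  rw [← hp.map_zsmul, natCast_zsmul]

/-- An endomorphism scaling `h` by `q` scales the pairing by `q`. -/
theorem pair_map (Φ : G →+ G) (q : ℤ) (hΦ : ∀ P, h (Φ P) = q * h P) (P Q : G) :
    pair h (Φ P) (Φ Q) = q * pair h P Q := by
  unfold pair
  rw [← Φ.map_add, hΦ, hΦ, hΦ]
  ring

end Para

/-- **Abstract Cayley–Hamilton in height form.** -/
theorem height_charpoly_eq_zero (h : G → ℤ) (hpar : Para h) (Φ : G →+ G) (q : ℤ)
    (hΦ : ∀ P, h (Φ P) = q * h P) (u : G) (hu : h u = 1)
    (hmul : h (Φ (Φ u) - u) = h (Φ u - u) * h (Φ u + u)) :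
    h (Φ (Φ u) - (q + 1 - h (Φ u - u)) • Φ u + q • u) = 0 := by
  set v := Φ u with hv
  set w := Φ v with hw
  have hhv : h v = q := by rw [hv, hΦ, hu, mul_one]
  have hhw : h w = q ^ 2 := by rw [hw, hΦ, hhv]; ring
  set t := pair h u v with ht
  set s := pair h u w with hs
  have hvw : pair h v w = q * t := Para.pair_map Φ q hΦ u v
  have h1 : h (v - u) = q + 1 - t := by
    rw [hpar.map_sub, hhv, hu, Para.pair_comm h v u]
  have h2 : h (v + u) = q + 1 + t := by
    rw [Para.map_add h, hhv, hu, Para.pair_comm h v u]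
  have h3 : h (w - u) = q ^ 2 + 1 - s := by
    rw [hpar.map_sub, hhw, hu, Para.pair_comm h w u]
  rw [h1, h2, h3] at hmul
  rw [h1]
  have ha : q + 1 - (q + 1 - t) = t := by ring
  rw [ha, Para.map_add h, hpar.map_sub, hpar.map_zsmul, hpar.map_zsmul, hhw, hhv, hu,
    hpar.pair_zsmul_right, hpar.pair_zsmul_right, sub_eq_add_neg w, hpar.pair_add_left,
    hpar.pair_neg_left, hpar.pair_zsmul_left, Para.pair_comm h w v, Para.pair_comm h w u,
    Para.pair_comm h v u, hvw]
  have hs' : s = t ^ 2 - 2 * q := by linarith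
  rw [← hs, ← ht, hs']
  ring

/-- Same statement with the parallelogram law spelled out (no auxiliary definition). -/
theorem height_charpoly_eq_zero' (h : G → ℤ)
    (hpar : ∀ P Q : G, h (P + Q) + h (P - Q) = 2 * h P + 2 * h Q) (Φ : G →+ G) (q : ℤ)
    (hΦ : ∀ P, h (Φ P) = q * h P) (u : G) (hu : h u = 1)
    (hmul : h (Φ (Φ u) - u) = h (Φ u - u) * h (Φ u + u)) :
    h (Φ (Φ u) - (q + 1 - h (Φ u - u)) • Φ u + q • u) = 0 :=
  height_charpoly_eq_zero h hpar Φ q hΦ u hu hmul

end Fermat.Agent.S52.A.QuadAbs
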